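import Fermat.Agent.Assembly.Vocabulary
import Fermat.Agent.MF.WeightBound
import Fermat.Agent.HM.Newform
import Fermat.Agent.Switch2.AtThree

/-!
# Elementary bounds
-/

set_option autoImplicit false

noncomputable section

open WeierstrassCurve CuspForm ModularFormClass
open scoped WeierstrassCurve.Affine

namespace FermatAgent.Assembly

/-- An algebraic integer in maximal ideals over arbitrarily large primes is zero. -/
theorem eq_zero_of_mem_large {d : ZC}
    (h : ∀ B : ℕ, ∃ p : ℕ, B < p ∧ p.Prime ∧ ∃ 𝔪 : Ideal ZC, 𝔪.IsMaximal ∧ (p : ZC) ∈ 𝔪 ∧ d ∈ 𝔪) :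
    d = 0 := by
  by_contra hd
  have hint : IsIntegral ℤ d :=
    (isIntegral_algHom_iff (integralClosure ℤ ℂ).val Subtype.val_injective).1 d.2
  set P := minpoly ℤ d with hP
  have hc : P.coeff 0 ≠ 0 := fun h0 => hd (by
    have e : Polynomial.X = P := Polynomial.eq_of_monic_of_associated Polynomial.monic_X
      (minpoly.monic hint)
      (Polynomial.irreducible_X.associated_of_dvd (minpoly.irreducible hint)
        (Polynomial.X_dvd_iff.2 h0))
    have h1 := minpoly.aeval ℤ d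
    rw [← hP, ← e, Polynomial.aeval_X] at h1
    exact h1)
  have hmem : ((P.coeff 0 : ℤ) : ZC) ∈ Ideal.span {d} := by
    have h0 := congrArg (Polynomial.aeval d) P.X_mul_divX_add
    rw [minpoly.aeval, map_add, map_mul, Polynomial.aeval_X, Polynomial.aeval_C,
      eq_intCast] at h0
    rw [eq_neg_of_add_eq_zero_right h0]
    exact neg_mem (Ideal.mul_mem_right _ _ (Ideal.mem_span_singleton_self d))
  obtain ⟨p, hpB, hp, 𝔪, hmax, hpm, hdm⟩ := h (P.coeff 0).natAbs
  have hcm : ((P.coeff 0 : ℤ) : ZC) ∈ 𝔪 := (Ideal.span_singleton_le_iff_mem _).2 hdm hmem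
  have hcop : IsCoprime (p : ℤ) (P.coeff 0) := by
    refine Int.isCoprime_iff_gcd_eq_one.2 (hp.coprime_iff_not_dvd.2 fun hd' => ?_)
    exact absurd (Nat.le_of_dvd (Int.natAbs_pos.2 hc) hd') (not_le.2 hpB)
  obtain ⟨u, v, huv⟩ := hcop
  refine hmax.ne_top ((Ideal.eq_top_iff_one _).2 ?_)
  have h1 : (u : ZC) * (p : ZC) + (v : ZC) * ((P.coeff 0 : ℤ) : ZC) = 1 := by
    exact_mod_cast congrArg (fun z : ℤ => (z : ZC)) huv
  rw [← h1]
  exact add_mem (Ideal.mul_mem_left _ _ hpm) (Ideal.mul_mem_left _ _ hcm)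

/-- An integer in maximal ideals over arbitrarily large primes is zero. -/
theorem eq_zero_of_dvd_large {z : ℤ} (h : ∀ B : ℕ, ∃ p : ℕ, B < p ∧ (p : ℤ) ∣ z) : z = 0 := by
  by_contra hz
  obtain ⟨p, hB, hd⟩ := h z.natAbs
  exact absurd (Nat.le_of_dvd (Int.natAbs_pos.2 hz) (Int.natCast_dvd.1 hd)) (not_le.2 hB)

/-- The eigenvalue at a prime `q` outside the level is not `± (q + 1)`. -/
theorem coeffBound (M : ℕ) (g : CuspForm (CongruenceSubgroup.Gamma0 M) 2) (q : ℕ) (hM : 0 < M)
    (hg : g.IsNormalizedEigenform) (hq : q.Prime) (hqM : ¬ q ∣ M) :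
    qCoeff g q ^ 2 ≠ ((q : ℂ) + 1) ^ 2 := by
  intro heq
  have : NeZero M := ⟨hM.ne'⟩
  have := Fact.mk hq
  have hT := HM.heckeTLin_apply_eigenform hg hq hqM
  obtain ⟨ε, hε, he⟩ : ∃ ε : ℝ, ε ^ 2 = 1 ∧ qCoeff g q = ((ε * (q + 1) : ℝ) : ℂ) := by
    rcases eq_or_eq_neg_of_sq_eq_sq _ _ heq with h | h
    · exact ⟨1, one_pow 2, by rw [h]; push_cast; ring⟩
    · exact ⟨-1, by norm_num, by rw [h]; push_cast; ring⟩
  refine hg.ne_zero (MF.Petersson.eq_zero_of_heckeT_eq (f := g) hqM hε ?_)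
  rw [← CuspForm.coe_heckeTLin_apply 2 hq hqM g, hT, he]
  rfl

/-- The trace at a good prime is not `± (q + 1)`. -/
theorem apOfModel_sq_ne {W : WeierstrassCurve ℤ} {q : ℕ} (hq : q.Prime) (hg : W.IsGoodPrimeFor q) :
    W.apOfModel q ^ 2 ≠ ((q : ℤ) + 1) ^ 2 := by
  classical
  have := Fact.mk hq
  set V := W.reductionMod q with hV
  have hΔ : V.Δ ≠ 0 := by
    rw [hV, reductionMod, WeierstrassCurve.map_Δ, eq_intCast, Ne,
      ZMod.intCast_zmod_eq_zero_iff_dvd]
    exact hg
  let s := Finset.univ.filter fun z : ZMod q × ZMod q => V.toAffine.Equation z.1 z.2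
  have hcard : V.card = s.card + 1 := by
    rw [WeierstrassCurve.card, Nat.card_congr (Switch2.pointEquivOption V hΔ),
      Finite.card_option, Nat.card_eq_fintype_card, Fintype.card_subtype]
  have hs : s.card ≤ 2 * q := by
    refine (Finset.card_le_mul_card_image (f := Prod.fst) s 2 fun x _ => ?_).trans
      (Nat.mul_le_mul_left 2 ?_)
    · by_cases hne : (s.filter fun z => z.1 = x).Nonempty
      · obtain ⟨⟨x', y₀⟩, hy₀⟩ := hne
        simp only [s, Finset.mem_filter, Finset.mem_univ, true_and, Affine.equation_iff] at hy₀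
        obtain ⟨h₀, rfl⟩ := hy₀
        refine (Finset.card_le_card (t := {(x', y₀), (x', -y₀ - V.a₁ * x' - V.a₃)}) ?_).trans
          Finset.card_le_two
        rintro ⟨a, b⟩ hb
        simp only [s, Finset.mem_filter, Finset.mem_univ, true_and, Affine.equation_iff] at hb
        obtain ⟨hb, rfl⟩ := hb
        have e : (b - y₀) * (b - (-y₀ - V.a₁ * a - V.a₃)) = 0 := by
          linear_combination hb - h₀
        rcases mul_eq_zero.1 e with e | e <;> simp [sub_eq_zero.1 e]
      · rw [Finset.not_nonempty_iff_eq_empty.1 hne]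
        exact Nat.zero_le 2
    · exact (Finset.card_le_univ _).trans (ZMod.card q).le
  intro h
  have hval : W.apOfModel q = (q : ℤ) + 1 - ((s.card : ℤ) + 1) := by
    rw [apOfModel, traceOfFrobenius, ← hV, hcard, Nat.card_zmod]
    push_cast; ring
  have hs' : (s.card : ℤ) ≤ 2 * q := by exact_mod_cast hs
  rcases eq_or_eq_neg_of_sq_eq_sq _ _ h with e | e <;> omega

end FermatAgent.Assembly
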