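import Fermat.Agent.Assembly.CleanLevel
import Fermat.Agent.LT.Mod3.Galois.Base
import Fermat.Agent.Switch2.Main
import Fermat.Agent.S51
import Fermat.Prelude.Def_WeierstrassCurve_ConductorLevel

/-!
# Modularity of semistable curves

Modularity spreads along congruences modulo `3` and `5` (`exact_of_torEquiv`), starting from
curves with surjective supersingular mod `3` representation (Langlands–Tunnell). Every semistable
curve is reached (`Switch2.transfers`), so all of them are modular of their exact conductor level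
(`exactConductor`).
-/

set_option autoImplicit false

noncomputable section

open WeierstrassCurve CuspForm ModularFormClass
open scoped WeierstrassCurve.Affine

namespace FermatAgent.Assembly

variable {W W' : WeierstrassCurve ℤ}

/-- Full image on the three torsion gives irreducibility. -/
theorem modRepIsIrreducible_of_surjThree (hΔ : W.Δ ≠ 0) (h : Switch2.SurjThree W) :
    W.ModRepIsIrreducible 3 := by
  classical
  have : Fact (Nat.Prime 3) := ⟨Nat.prime_three⟩
  have hrank := EC.finrank_torsionBy_rat (W.map (Int.castRingHom ℚ)) (EC.intMap_Δ_ne_zero hΔ) 3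
  refine ⟨Module.nontrivial_of_finrank_eq_succ hrank, fun N hN => ?_⟩
  by_contra hcon
  push Not at hcon
  obtain ⟨hb, ht⟩ := hcon
  obtain ⟨x, hx, hx0⟩ := Submodule.exists_mem_ne_zero_of_ne_bot hb
  obtain ⟨y, hy⟩ : ∃ y, y ∉ N := by
    by_contra hall
    push Not at hall
    exact ht (Submodule.eq_top_iff'.2 hall)
  have : Module.Finite (ZMod 3) (Submodule.torsionBy ℤ
      ((W.map (Int.castRingHom ℚ))⁄(AlgebraicClosure ℚ)).Point (3 : ℕ)) :=
    Module.finite_of_finrank_eq_succ hrank
  have hli : LinearIndependent (ZMod 3) ![x, y] := by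
    rw [LinearIndependent.pair_iff' hx0]
    exact fun c hc => hy (hc ▸ N.smul_mem c hx)
  let b := basisOfLinearIndependentOfCardEqFinrank hli (by rw [Fintype.card_fin]; exact hrank.symm)
  let f := b.equiv b (Equiv.swap 0 1)
  obtain ⟨σ, hσ⟩ := h f.toAddEquiv
  refine hy ?_
  have e : σ • x = y := by
    refine (hσ x).trans ?_
    have hbx : b 0 = x := by simp [b]
    have hby : b 1 = y := by simp [b]
    show f x = y
    conv_lhs => rw [← hbx]
    rw [Module.Basis.equiv_apply, Equiv.swap_apply_left, hby]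
  exact e ▸ hN σ x hx

/-- A modular curve is residually modular at every prime, of the level whose primes are its bad
primes. -/
theorem residual_of_exact (hΔ : W.Δ ≠ 0) (h : Mlc1IsModularModelOfExactConductorLevel W)
    {p : ℕ} (hp : p.Prime) :
    ∃ N : ℕ, Squarefree N ∧ (∀ q : ℕ, q.Prime → (q ∣ N ↔ (q : ℤ) ∣ W.Δ)) ∧
      W.IsResiduallyModularOfLevel p N := by
  obtain ⟨N, hN0, hN, hq, f, hf, hfa⟩ := h
  have : NeZero N := ⟨hN0.ne'⟩
  obtain ⟨𝔪, h𝔪⟩ := (show Matches W N f from
    ⟨hf, ∅, fun ℓ hℓ _ hg hℓN => hfa ℓ hℓ hg hℓN⟩).congr hΔ hp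
  exact ⟨N, hN, hq, f, 𝔪, h𝔪⟩

/-- One lifting step: a semistable curve residually modular at an odd irreducible prime `p`, of
squarefree level prime to `p` if the reduction there is good, is modular of its exact conductor
level. -/
theorem exact_of_seed (hΔ : W.Δ ≠ 0) (hW : W.IsSemistableModel) {p : ℕ}
    (hp : p.Prime) (hp2 : p ≠ 2) (hirr : W.ModRepIsIrreducible p) {M₀ : ℕ} (hM₀ : Squarefree M₀)
    (hres : W.IsResiduallyModularOfLevel p M₀) (hgp : W.IsGoodPrimeFor p → ¬ p ∣ M₀) :
    Mlc1IsModularModelOfExactConductorLevel W := by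
  obtain ⟨M, f, hM, hf⟩ := matches_of_seed hΔ hW hp hp2 hirr hM₀ hres hgp
  exact exactConductor_of_matches hΔ hW hM hf

/-- Residual modularity transfers along isomorphic torsion. -/
theorem residual_of_torEquiv (hΔ' : W'.Δ ≠ 0) {p N : ℕ} (hp : p.Prime) (hN : N ≠ 0)
    (hT : Switch.TorEquiv p W W') (h : W'.IsResiduallyModularOfLevel p N) :
    W.IsResiduallyModularOfLevel p N := by
  have : NeZero N := ⟨hN⟩
  obtain ⟨f, 𝔪, hc⟩ := h
  exact ⟨f, 𝔪, Congr.of_torEquiv hΔ' hp hT hc⟩

/-- One congruence step: modularity passes from `W'` to `W` along an isomorphism of irreducible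
`p` torsion, if good reduction of `W` at `p` implies that of `W'`. -/
theorem exact_of_torEquiv (hΔ : W.Δ ≠ 0) (hW : W.IsSemistableModel) {p : ℕ}
    (hp : p.Prime) (hp2 : p ≠ 2) (hirr : W.ModRepIsIrreducible p)
    (hT : Switch.TorEquiv p W W') (hgd : W.IsGoodPrimeFor p → W'.IsGoodPrimeFor p)
    (h' : W'.Δ ≠ 0 ∧ Mlc1IsModularModelOfExactConductorLevel W') :
    Mlc1IsModularModelOfExactConductorLevel W := by
  obtain ⟨N, hN, hq, hres⟩ := residual_of_exact h'.1 h'.2 hp
  exact exact_of_seed hΔ hW hp hp2 hirr hN (residual_of_torEquiv h'.1 hp hN.ne_zero hT hres)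
    fun hg hd => hgd hg ((hq p hp).1 hd)

/-- A curve joined to a base curve by congruences modulo `3` and `5` is modular of its exact
conductor level. -/
theorem exact_of_transfers :
    ∀ {W : WeierstrassCurve ℤ}, Switch2.Transfers W →
      W.Δ ≠ 0 ∧ Mlc1IsModularModelOfExactConductorLevel W := by
  intro W h
  induction h with
  | base hΔ hW hgood hss hsurj =>
    obtain ⟨M, -, hM, h3, hres⟩ := LT.Mod3.modThreeBase _ hΔ hW hgood hss
    exact ⟨hΔ, exact_of_seed hΔ hW Nat.prime_three (by norm_num)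
      (modRepIsIrreducible_of_surjThree hΔ hsurj) hM hres fun _ => h3⟩
  | five hΔ hW hirr hX _ ih =>
    exact ⟨hΔ, exact_of_torEquiv hΔ hW (by norm_num) (by norm_num) hirr hX.torEquiv hX.good ih⟩
  | three hΔ hW hirr hX _ ih =>
    exact ⟨hΔ, exact_of_torEquiv hΔ hW Nat.prime_three (by norm_num) hirr hX.torEquiv hX.good ih⟩

/-- **Every semistable curve is modular of its exact conductor level.** -/
theorem exactConductor (hΔ : W.Δ ≠ 0) (hW : W.IsSemistableModel) :
    Mlc1IsModularModelOfExactConductorLevel W :=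
  (exact_of_transfers (Switch2.transfers W hΔ hW (Fermat.Agent.S51.result W hΔ hW))).2

/-- The statement of S60: semistable elliptic curves over `ℚ` are modular. -/
theorem s60_of (W : WeierstrassCurve ℤ) (hΔ : W.Δ ≠ 0) (hW : W.IsSemistableModel) :
    (W.map (Int.castRingHom ℚ)).IsModular := by
  obtain ⟨N, hN, -, -, hmod⟩ := exactConductor hΔ hW
  exact ⟨W, ⟨1, one_smul _ _⟩, N, hN, hmod⟩

/-- The statement of S58: a semistable model is modular of its conductor level. -/
theorem s58_of (W : WeierstrassCurve ℤ) (hss : W.IsSemistableModel) (N : ℕ)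
    (hbad : ∀ ℓ : ℕ, ℓ.Prime → (ℓ : ℤ) ∣ W.Δ → ℓ ∣ N)
    (hN3 : ∀ q : ℕ, q.Prime → ¬ q ^ 3 ∣ N) :
    W.IsModularModelOfLevel W.conductorLevel := by
  by_cases hΔ : W.Δ = 0
  · exfalso
    obtain ⟨q, hqN, hq⟩ := Nat.exists_infinite_primes (N + 1)
    rcases eq_or_ne N 0 with rfl | hN
    · exact hN3 2 Nat.prime_two (dvd_zero _)
    · have := Nat.le_of_dvd (Nat.pos_of_ne_zero hN) (hbad q hq (by rw [hΔ]; exact dvd_zero _))
      omega
  obtain ⟨N', -, hN', hq, hmod⟩ := exactConductor hΔ hss
  have e : N' = W.conductorLevel := by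
    rw [← Nat.prod_primeFactors_of_squarefree hN',
      ← Nat.prod_primeFactors_of_squarefree W.squarefree_conductorLevel]
    congr 1
    ext q
    simp only [Nat.mem_primeFactors, ne_eq, hN'.ne_zero, W.conductorLevel_pos.ne',
      not_false_eq_true, and_true]
    exact and_congr_right fun hqp => (hq q hqp).trans (W.prime_dvd_conductorLevel_iff hΔ hqp).symm
  exact e ▸ hmod

/-- The statement of S50: a semistable curve is residually modular at `3` of a suitable level. -/
theorem s50_of (W : WeierstrassCurve ℤ) (hΔ : W.Δ ≠ 0) (hW : W.IsSemistableModel) :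
    ∃ M : ℕ, 0 < M ∧ W.IsResiduallyModularOfLevel 3 M ∧
      (∀ q : ℕ, q.Prime → q ≠ 3 → ¬ q ^ 3 ∣ M) ∧
      (3 ^ 2 ∣ M →
        ∀ A : ValuationSubring (AlgebraicClosure ℚ), A.LiesOverPrime 3 →
          ∀ x : Submodule.torsionBy ℤ
              ((W.map (Int.castRingHom ℚ))⁄(AlgebraicClosure ℚ)).Point (3 : ℕ),
            (∀ σ ∈ A.inertiaSubgroupIn ℚ, σ • x = x) → x = 0) := by
  obtain ⟨N, hN, -, hres⟩ := residual_of_exact hΔ (exactConductor hΔ hW) Nat.prime_three
  have hsq : ∀ q : ℕ, q.Prime → ¬ q ^ 2 ∣ N := fun q hq h =>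
    Nat.squarefree_iff_prime_squarefree.1 hN q hq (by rwa [← pow_two])
  exact ⟨N, Nat.pos_of_ne_zero hN.ne_zero, hres,
    fun q hq _ h => hsq q hq ((pow_dvd_pow q (by norm_num : 2 ≤ 3)).trans h),
    fun h => absurd h (hsq 3 Nat.prime_three)⟩

end FermatAgent.Assembly
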