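import Fermat.Agent.Assembly.Vocabulary
import Fermat.Agent.GaloisBasic.CharpolyDensity
import Fermat.Agent.Mazur.TwoDim
import Fermat.Agent.EC.GoodPrimeTrace
import Fermat.Agent.ES.Tate.Residual
import Fermat.Agent.EC.DetFrobenius

/-!
# Residual congruences are detected almost everywhere
-/

set_option autoImplicit false

noncomputable section

open WeierstrassCurve CuspForm ModularFormClass Polynomial
open scoped WeierstrassCurve.Affine TensorProduct Matrix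

namespace FermatAgent.Assembly

local notation "GQ" => AlgebraicClosure ℚ ≃ₐ[ℚ] AlgebraicClosure ℚ
local notation "Qbar" => AlgebraicClosure ℚ

variable {W W' : WeierstrassCurve ℤ} {p M : ℕ}

/-- The torsion of an integral curve as a residual representation over `ZMod p`. -/
def torRep (W : WeierstrassCurve ℤ) (hΔ : W.Δ ≠ 0) (p : ℕ) [hp : Fact p.Prime] :
    ResidualGaloisRep (ZMod p) :=
  (W.map (Int.castRingHom ℚ)).residualGaloisRepOf p
    (EC.natCard_torsionBy_rat _ (EC.intMap_Δ_ne_zero hΔ) hp.out.ne_zero)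
    (EC.galoisFactorsThroughFiniteLevel_torsionBy _ (EC.intMap_Δ_ne_zero hΔ) hp.out.ne_zero)

/-- The torsion over a field of characteristic `p`. -/
def torRepK (W : WeierstrassCurve ℤ) (hΔ : W.Δ ≠ 0) (p : ℕ) [Fact p.Prime] (k : Type) [Field k]
    [CharP k p] : ResidualGaloisRep k :=
  (torRep W hΔ p).baseChangeAlong (ZMod.castHom (dvd_refl p) k)

lemma charpoly_torRepK (hΔ : W.Δ ≠ 0) [Fact p.Prime] (k : Type) [Field k] [CharP k p] (σ : GQ) :
    LinearMap.charpoly ((torRepK W hΔ p k).ρ σ) =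
      (LinearMap.charpoly ((torRep W hΔ p).ρ σ)).map (ZMod.castHom (dvd_refl p) k) := by
  let : Algebra (ZMod p) k := (ZMod.castHom (dvd_refl p) k).toAlgebra
  exact LinearMap.charpoly_baseChange ((torRep W hΔ p).ρ σ) k

/-- A quadratic characteristic polynomial from trace and determinant. -/
lemma charpoly_eq_of_trace_det {k V : Type} [Field k] [AddCommGroup V] [Module k V]
    [Module.Finite k V] (h2 : Module.finrank k V = 2) (f : Module.End k V) :
    LinearMap.charpoly f =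
      X ^ 2 - C (LinearMap.trace k V f) * X + C (LinearMap.det f) :=
  EC.charpoly_plane (Module.finBasisOfFinrankEq k V h2) f

lemma charpoly_torRep (hΔ : W.Δ ≠ 0) [Fact p.Prime] (σ : GQ) :
    LinearMap.charpoly ((torRep W hΔ p).ρ σ) =
      X ^ 2 - C (Affine.Point.galoisTrace ℚ (W.map (Int.castRingHom ℚ)).toAffine p σ) * X +
        C (LinearMap.det (Affine.Point.galoisRepModuleEnd ℚ
          (W.map (Int.castRingHom ℚ)).toAffine p σ)) :=
  charpoly_eq_of_trace_det (torRep W hΔ p).finrank_eq _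

lemma charpoly_torRepK_frobenius (hΔ : W.Δ ≠ 0) [Fact p.Prime] (k : Type) [Field k] [CharP k p]
    {ℓ : ℕ} (hℓ : ℓ.Prime) (hℓp : ℓ ≠ p) {A : ValuationSubring Qbar} (hA : A.LiesOverPrime ℓ)
    {σ : GQ} (hσ : A.IsFrobeniusAt σ ℓ) :
    LinearMap.charpoly ((torRepK W hΔ p k).ρ σ) =
      X ^ 2 - C (ZMod.castHom (dvd_refl p) k
        (Affine.Point.galoisTrace ℚ (W.map (Int.castRingHom ℚ)).toAffine p σ)) * X +
        C (ℓ : k) := by
  rw [charpoly_torRepK, charpoly_torRep, EC.det_frobenius hΔ hℓ hℓp hA hσ]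
  simp

lemma charP_quotient (hp : p.Prime) {𝔪 : Ideal ZC} (hmax : 𝔪.IsMaximal) (hmem : (p : ZC) ∈ 𝔪) :
    CharP (ZC ⧸ 𝔪) p := by
  have := hmax
  let : Field (ZC ⧸ 𝔪) := Ideal.Quotient.field 𝔪
  refine (CharP.charP_iff_prime_eq_zero hp).mpr ?_
  rw [← map_natCast (Ideal.Quotient.mk 𝔪)]
  exact Ideal.Quotient.eq_zero_iff_mem.mpr hmem

/-- The residual congruence at all primes `ℓ ∤ M`, `ℓ ≠ p`: the eigenvalue reduces to the Frobenius
trace on the torsion, and irreducible torsion is unramified there. -/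
structure GaloisCongr (W : WeierstrassCurve ℤ) (p M : ℕ)
    (f : CuspForm (CongruenceSubgroup.Gamma0 M) 2) (𝔪 : Ideal ZC) : Prop where
  attached : ∀ ℓ : ℕ, ℓ.Prime → ¬ ℓ ∣ M → ℓ ≠ p →
    ∀ A : ValuationSubring Qbar, A.LiesOverPrime ℓ → ∀ σ : GQ, A.IsFrobeniusAt σ ℓ →
      ∃ a : ZC, (a : ℂ) = qCoeff f ℓ ∧ ∀ b : ℤ,
        Affine.Point.galoisTrace ℚ (W.map (Int.castRingHom ℚ)).toAffine p σ = (b : ZMod p) →
          a - (b : ZC) ∈ 𝔪
  unramified : W.ModRepIsIrreducible p → ∀ q : ℕ, q.Prime → ¬ q ∣ M → q ≠ p → UnramAt W p q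

/-- Unipotence of every element of a normal subgroup acting irreducibly means triviality. -/
lemma eq_one_of_charpoly_eq {k : Type} [Field k] {V : Type} [AddCommGroup V] [Module k V]
    [Module.Finite k V] (h2 : Module.finrank k V = 2) {G : Type} [Group G]
    (ρ : G →* Module.End k V) (H : Subgroup G) [H.Normal]
    (hirr : ∀ N : Submodule k V, (∀ g, ∀ x ∈ N, ρ g x ∈ N) → N = ⊥ ∨ N = ⊤)
    (hH : ∀ h ∈ H, LinearMap.charpoly (ρ h) = (X - C 1) ^ 2) :
    ∀ h ∈ H, ρ h = 1 := by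
  let N : Submodule k V := ⨅ h : H, LinearMap.ker (ρ h.1 - 1)
  have hN : ∀ x, x ∈ N ↔ ∀ h ∈ H, ρ h x = x := fun x => by
    simp [N, Submodule.mem_iInf, sub_eq_zero]
  rcases hirr N (fun g x hx => (hN _).2 fun h hh => by
      have hc : g⁻¹ * h * g ∈ H := by
        simpa using (inferInstance : H.Normal).conj_mem h hh g⁻¹
      have h1 := congrArg (ρ g) ((hN x).1 hx _ hc)
      rw [← Module.End.mul_apply, ← map_mul, show g * (g⁻¹ * h * g) = h * g by group, map_mul,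
        Module.End.mul_apply] at h1
      exact h1) with hbot | htop
  swap
  · intro h hh
    exact LinearMap.ext fun x => (hN x).1 (htop ▸ Submodule.mem_top) h hh
  -- a unipotent group has a fixed vector
  exfalso
  let b : Module.Basis (Fin 2) k V := Module.finBasisOfFinrankEq k V h2
  let r : H →* Matrix (Fin 2) (Fin 2) k :=
    (LinearMap.toMatrixAlgEquiv b).toAlgHom.toRingHom.toMonoidHom.comp (ρ.comp H.subtype)
  have hsq : ∀ g, (r g - 1) ^ 2 = 0 := fun g => by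
    have h1 := LinearMap.aeval_self_charpoly (ρ g.1)
    rw [hH g.1 g.2] at h1
    simpa [r] using congrArg (LinearMap.toMatrixAlgEquiv b) h1
  obtain ⟨v, hv, hfix⟩ : ∃ v ≠ 0, ∀ g, r g *ᵥ v = v := by
    refine (Mazur.common_fixed r fun g => ?_).elim id ?_
    · exact eq_zero_of_pow_eq_zero (n := 2) (by rw [← Matrix.det_pow, hsq g, Matrix.det_zero])
    rintro ⟨w, hw, hfix⟩
    refine ⟨![-w 1, w 0], fun h => hw (funext fun i => ?_), fun g => ?_⟩
    · fin_cases i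
      · simpa using congrFun h 1
      · simpa using congrFun h 0
    have h1 := Mazur.mulVec_eq_zero_of_vecMul
      (by rw [Matrix.vecMul_sub, hfix g, Matrix.vecMul_one, sub_self])
      (Mazur.trace_eq_zero_of_sq (hsq g))
    rwa [Matrix.sub_mulVec, Matrix.one_mulVec, sub_eq_zero] at h1
  have hmem : b.equivFun.symm v ∈ N := (hN _).2 fun h hh => by
    apply b.equivFun.injective
    rw [LinearEquiv.apply_symm_apply]
    conv_rhs => rw [← hfix ⟨h, hh⟩, ← b.equivFun.apply_symm_apply v]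
    exact (LinearMap.toMatrix_mulVec_repr b b (ρ h) _).symm
  rw [hbot, Submodule.mem_bot, LinearEquiv.map_eq_zero_iff] at hmem
  exact hv hmem

lemma ZC_eq {a a' : ZC} (h : (a : ℂ) = a') : a = a' := Subtype.ext h

/-- A congruence at almost all primes holds everywhere. -/
theorem galoisCongr (hΔ : W.Δ ≠ 0) (hp : p.Prime) [NeZero M]
    {f : CuspForm (CongruenceSubgroup.Gamma0 M) 2} {𝔪 : Ideal ZC} (hf : f.IsNormalizedEigenform)
    (hmax : 𝔪.IsMaximal) (hmem : (p : ZC) ∈ 𝔪) (S : Finset ℕ)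
    (h : ∀ ℓ : ℕ, ℓ.Prime → ℓ ∉ S → W.IsGoodPrimeFor ℓ → ¬ ℓ ∣ M → ℓ ≠ p →
      ∃ a : ZC, (a : ℂ) = qCoeff f ℓ ∧ a - ((W.apOfModel ℓ : ℤ) : ZC) ∈ 𝔪) :
    GaloisCongr W p M f 𝔪 := by
  have := Fact.mk hp
  have := hmax
  let : Field (ZC ⧸ 𝔪) := Ideal.Quotient.field 𝔪
  have := charP_quotient hp hmax hmem
  obtain ⟨ρ, hρ, hρu⟩ := ES.residualRep_of_eigenform hf hp (Ideal.Quotient.mk 𝔪)
  have hk : ∀ {ℓ : ℕ}, ℓ.Prime → ℓ ≠ p → (ℓ : ZC ⧸ 𝔪) ≠ 0 := fun {ℓ} hℓ hℓp => by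
    rw [Ne, CharP.cast_eq_zero_iff _ p, Nat.prime_dvd_prime_iff_eq hp hℓ]
    exact Ne.symm hℓp
  have hcast : ∀ b : ℤ, ZMod.castHom (dvd_refl p) (ZC ⧸ 𝔪) (b : ZMod p) =
      Ideal.Quotient.mk 𝔪 (b : ZC) := fun b => by rw [map_intCast, map_intCast]
  have key : ∀ g, LinearMap.charpoly (ρ.ρ g) =
      LinearMap.charpoly ((torRepK W hΔ p (ZC ⧸ 𝔪)).ρ g) := by
    refine GaloisBasic.residual_charpoly_eq_of_frobenius ρ (torRepK W hΔ p _)
      (S ∪ M.primeFactors ∪ W.Δ.natAbs.primeFactors ∪ {p}) ?_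
    intro q hq hqS A hA σ hσ
    simp only [Finset.mem_union, Finset.mem_singleton, Nat.mem_primeFactors, not_or, not_and_or]
      at hqS
    obtain ⟨⟨⟨h1, h2⟩, h3⟩, h4⟩ := hqS
    have hqM : ¬ q ∣ M := by
      rcases h2 with h2 | h2 | h2
      exacts [absurd hq h2, h2, absurd (NeZero.ne M) h2]
    have hg : W.IsGoodPrimeFor q := fun hd => by
      rcases h3 with h3 | h3 | h3
      exacts [h3 hq, h3 (Int.natCast_dvd.1 hd), h3 (Int.natAbs_ne_zero.2 hΔ)]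
    obtain ⟨a, ha, hch⟩ := hρ q hq hqM (hk hq h4) A hA σ hσ
    obtain ⟨a', ha', hmem'⟩ := h q hq h1 hg hqM h4
    rw [hch, charpoly_torRepK_frobenius hΔ _ hq h4 hA hσ,
      EC.galoisTrace_frobenius_eq_apOfModel W hq hg h4 hA hσ, hcast,
      ZC_eq (ha.trans ha'.symm), Ideal.Quotient.eq.2 hmem']
  refine ⟨fun ℓ hℓ hℓM hℓp A hA σ hσ => ?_, fun hirr q hq hqM hqp A hA σ hσ x => ?_⟩
  · obtain ⟨a, ha, hch⟩ := hρ ℓ hℓ hℓM (hk hℓ hℓp) A hA σ hσ
    refine ⟨a, ha, fun b hb => ?_⟩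
    have h1 := key σ
    rw [hch, charpoly_torRepK_frobenius hΔ _ hℓ hℓp hA hσ, hb, hcast] at h1
    have h2 := congrArg (fun P : (ZC ⧸ 𝔪)[X] => P.coeff 1) h1
    simp [coeff_X_pow] at h2
    rwa [← map_intCast (Ideal.Quotient.mk 𝔪), Ideal.Quotient.eq] at h2
  · have hH : ∀ g ∈ ρ.ρ.ker, LinearMap.charpoly ((torRep W hΔ p).ρ g) = (X - C 1) ^ 2 := by
      intro g hg
      apply Polynomial.map_injective (ZMod.castHom (dvd_refl p) (ZC ⧸ 𝔪)) (RingHom.injective _)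
      rw [← charpoly_torRepK hΔ (ZC ⧸ 𝔪) g, ← key g, MonoidHom.mem_ker.1 hg,
        charpoly_eq_of_trace_det ρ.finrank_eq, LinearMap.trace_one, ρ.finrank_eq,
        show (1 : Module.End (ZC ⧸ 𝔪) ρ.V) = LinearMap.id from rfl, LinearMap.det_id]
      simp only [Polynomial.map_pow, Polynomial.map_sub, Polynomial.map_X, map_one,
        Polynomial.map_one]
      rw [Nat.cast_ofNat, C_ofNat]
      ring
    have h1 := eq_one_of_charpoly_eq (torRep W hΔ p).finrank_eq (torRep W hΔ p).ρ ρ.ρ.ker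
      (fun N hN => hirr.2 N fun g y hy => hN g y hy) hH σ
      (MonoidHom.mem_ker.2 (hρu q hq (fun hd => by
        rcases (Nat.Prime.dvd_mul hq).1 hd with hd | hd
        exacts [hqM hd, hqp ((Nat.prime_dvd_prime_iff_eq hq hp).1 hd)]) A hA σ hσ))
    exact LinearMap.congr_fun h1 x

/-- A congruence gives the residual congruence at all primes. -/
theorem Congr.galoisCongr (hΔ : W.Δ ≠ 0) (hp : p.Prime) [NeZero M]
    {f : CuspForm (CongruenceSubgroup.Gamma0 M) 2} {𝔪 : Ideal ZC} (h : Congr W p M f 𝔪) :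
    GaloisCongr W p M f 𝔪 :=
  Assembly.galoisCongr hΔ hp h.1 h.2.1 h.2.2.1 ∅ fun ℓ hℓ _ hg hM hp' => h.2.2.2 ℓ hℓ hg hM hp'

/-- A congruence at almost all primes gives `Congr`. -/
theorem congr_of_cofinite (hΔ : W.Δ ≠ 0) (hp : p.Prime) [NeZero M]
    {f : CuspForm (CongruenceSubgroup.Gamma0 M) 2} {𝔪 : Ideal ZC} (hf : f.IsNormalizedEigenform)
    (hmax : 𝔪.IsMaximal) (hmem : (p : ZC) ∈ 𝔪) (S : Finset ℕ)
    (h : ∀ ℓ : ℕ, ℓ.Prime → ℓ ∉ S → W.IsGoodPrimeFor ℓ → ¬ ℓ ∣ M → ℓ ≠ p →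
      ∃ a : ZC, (a : ℂ) = qCoeff f ℓ ∧ a - ((W.apOfModel ℓ : ℤ) : ZC) ∈ 𝔪) :
    Congr W p M f 𝔪 := by
  refine ⟨hf, hmax, hmem, fun ℓ hℓ hg hℓM hℓp => ?_⟩
  have := Fact.mk hp
  obtain ⟨A, hA⟩ := GaloisBasic.exists_liesOverPrime hℓ
  obtain ⟨σ, hσ⟩ := GaloisBasic.exists_isFrobeniusAt hℓ hA
  obtain ⟨a, ha, hb⟩ := (galoisCongr hΔ hp hf hmax hmem S h).attached ℓ hℓ hℓM hℓp A hA σ hσ
  exact ⟨a, ha, hb _ (EC.galoisTrace_frobenius_eq_apOfModel W hℓ hg hℓp hA hσ)⟩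

/-- Isomorphic torsion transfers congruences. -/
theorem Congr.of_torEquiv [NeZero M] (hΔ' : W'.Δ ≠ 0) (hp : p.Prime)
    (hT : Switch.TorEquiv p W W') {f : CuspForm (CongruenceSubgroup.Gamma0 M) 2} {𝔪 : Ideal ZC}
    (h : Congr W' p M f 𝔪) : Congr W p M f 𝔪 := by
  have := Fact.mk hp
  refine ⟨h.1, h.2.1, h.2.2.1, fun ℓ hℓ hg hℓM hℓp => ?_⟩
  obtain ⟨A, hA⟩ := GaloisBasic.exists_liesOverPrime hℓ
  obtain ⟨σ, hσ⟩ := GaloisBasic.exists_isFrobeniusAt hℓ hA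
  obtain ⟨a, ha, hb⟩ := (h.galoisCongr hΔ' hp).attached ℓ hℓ hℓM hℓp A hA σ hσ
  exact ⟨a, ha, hb _ (by
    rw [← Switch.galoisTrace_eq_of_torEquiv hT σ,
      EC.galoisTrace_frobenius_eq_apOfModel W hℓ hg hℓp hA hσ])⟩

end FermatAgent.Assembly
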