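import Fermat.Prelude.Def_FLTPrelim_ModularRep
import Fermat.Prelude.Def_FLTPrelim_Ramification
import Fermat.Prelude.Def_EllipticCurve_FrobeniusTrace
import Fermat.Prelude.Def_CuspForm_Newforms
import Fermat.Agent.Switch2.Transfers

/-!
# The vocabulary of modularity of semistable curves

Congruences of eigenforms with curves, the signs and residual ramification at primes, irreducibility
on subgroups of index two and clean levels, in which the theorems assembled into modularity of
semistable curves and the endgame for the Frey curve are stated.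
-/

set_option autoImplicit false

noncomputable section

open WeierstrassCurve CuspForm ModularFormClass
open scoped WeierstrassCurve.Affine

namespace FermatAgent.Assembly

local notation "GQ" => AlgebraicClosure ℚ ≃ₐ[ℚ] AlgebraicClosure ℚ

/-- The algebraic integers in `ℂ`. -/
abbrev ZC := integralClosure ℤ ℂ

/-- `f` is a normalised eigenform congruent to `W` modulo `𝔪`. -/
def Congr (W : WeierstrassCurve ℤ) (p M : ℕ) (f : CuspForm (CongruenceSubgroup.Gamma0 M) 2)
    (𝔪 : Ideal ZC) : Prop :=
  f.IsNormalizedEigenform ∧ 𝔪.IsMaximal ∧ (p : ZC) ∈ 𝔪 ∧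
    ∀ ℓ : ℕ, ℓ.Prime → W.IsGoodPrimeFor ℓ → ¬ ℓ ∣ M → ℓ ≠ p →
      ∃ a : ZC, (a : ℂ) = qCoeff f ℓ ∧ a - ((W.apOfModel ℓ : ℤ) : ZC) ∈ 𝔪

/-- Residual modularity is the existence of a congruent eigenform. -/
theorem isResiduallyModularOfLevel_iff {W : WeierstrassCurve ℤ} {p M : ℕ} :
    W.IsResiduallyModularOfLevel p M ↔ ∃ f 𝔪, Congr W p M f 𝔪 :=
  Iff.rfl

/-- The coefficient of index `n` is a unit modulo `𝔪`. -/
def UnitCoeff {M : ℕ} (f : CuspForm (CongruenceSubgroup.Gamma0 M) 2) (n : ℕ) (𝔪 : Ideal ZC) :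
    Prop :=
  ∃ a : ZC, (a : ℂ) = qCoeff f n ∧ a ∉ 𝔪

/-- The sign of a multiplicative prime: `1` split, `-1` nonsplit. -/
def multSign (W : WeierstrassCurve ℤ) (q : ℕ) : ℤ := W.apOfModel q - 1

/-- Multiplicative or good ordinary reduction at `p`. -/
def OrdinaryAt (W : WeierstrassCurve ℤ) (p : ℕ) : Prop :=
  ¬ W.IsGoodPrimeFor p ∨ ¬ (p : ℤ) ∣ W.apOfModel p

/-- The mod `p` representation is unramified at `q`. -/
def UnramAt (W : WeierstrassCurve ℤ) (p q : ℕ) : Prop :=
  Affine.Point.GaloisRepUnramifiedAt (K := AlgebraicClosure ℚ) ℚ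
    (W.map (Int.castRingHom ℚ)).toAffine p q

/-- The image of every subgroup of index two spans all endomorphisms of the torsion. -/
def IrredIndexTwo (W : WeierstrassCurve ℤ) (p : ℕ) : Prop :=
  ∀ H : Subgroup GQ, H.index = 2 →
    Submodule.span (ZMod p)
      ((fun σ => Affine.Point.galoisRepModuleEnd (K := AlgebraicClosure ℚ) ℚ
        (W.map (Int.castRingHom ℚ)).toAffine p σ) '' (H : Set GQ)) = ⊤

/-- A level clean for lifting. At each of its primes `q ≠ p` with `q ≢ 1 (mod p)` the residual
representation is ramified, each bad prime `q ≠ p` outside it is `≢ 1 (mod p)` with unramified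
residual representation, and it is prime to `p` if the curve has good reduction there. -/
structure CleanLevel (W : WeierstrassCurve ℤ) (p M : ℕ) : Prop where
  clean : ∀ q : ℕ, q.Prime → q ≠ p → q ∣ M → (q : ZMod p) = 1 ∨ ¬ UnramAt W p q
  outside : ∀ q : ℕ, q.Prime → q ≠ p → ¬ W.IsGoodPrimeFor q → ¬ q ∣ M →
    (q : ZMod p) ≠ 1 ∧ UnramAt W p q
  good : W.IsGoodPrimeFor p → ¬ p ∣ M

end FermatAgent.Assembly
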