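import Fermat.Agent.Assembly.Residual
import Fermat.Agent.Assembly.Bound
import Fermat.Agent.HM.Newform
import Fermat.Agent.Assembly.NewFrobenius.Main
import Fermat.Agent.TateRep.TraceMult
import Fermat.Prelude.Def_WeierstrassCurve_Mlc1RowStatement

/-!
# The exact conductor level

An eigenform of squarefree level with the eigenvalues of a semistable curve at almost all primes
gives a newform whose level is the product of the bad primes and which agrees with the curve at all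
good primes (`exactConductor_of_matches`).
-/

set_option autoImplicit false

noncomputable section

open WeierstrassCurve CuspForm ModularFormClass
open scoped WeierstrassCurve.Affine

namespace FermatAgent.Assembly

variable {W : WeierstrassCurve ℤ} {N : ℕ}

/-- The eigensystem of `f` is that of `W` at almost all primes. -/
def Matches (W : WeierstrassCurve ℤ) (N : ℕ) (f : CuspForm (CongruenceSubgroup.Gamma0 N) 2) :
    Prop :=
  f.IsNormalizedEigenform ∧ ∃ S : Finset ℕ, ∀ ℓ : ℕ, ℓ.Prime → ℓ ∉ S → W.IsGoodPrimeFor ℓ →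
    ¬ ℓ ∣ N → qCoeff f ℓ = (W.apOfModel ℓ : ℂ)

/-- Matching eigenforms are congruent to the curve modulo a place over every prime. -/
theorem Matches.congr [NeZero N] (hΔ : W.Δ ≠ 0) {f : CuspForm (CongruenceSubgroup.Gamma0 N) 2}
    (h : Matches W N f) {p : ℕ} (hp : p.Prime) :
    ∃ 𝔪 : Ideal ZC, Congr W p N f 𝔪 := by
  obtain ⟨hf, S, hS⟩ := h
  obtain ⟨𝔪, hmax, hmem⟩ := FLTPrelim.exists_maximalIdeal_natCast_prime_mem hp
  exact ⟨𝔪, congr_of_cofinite hΔ hp hf hmax hmem S fun ℓ hℓ hℓS hg hℓN _ =>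
    ⟨(W.apOfModel ℓ : ZC), by rw [hS ℓ hℓ hℓS hg hℓN]; simp, by rw [sub_self]; exact 𝔪.zero_mem⟩⟩

/-- A coefficient determined modulo large primes by Frobenius traces. -/
theorem Matches.qCoeff_eq [NeZero N] (hΔ : W.Δ ≠ 0)
    {f : CuspForm (CongruenceSubgroup.Gamma0 N) 2} (h : Matches W N f) {ℓ : ℕ} (hℓ : ℓ.Prime)
    (hℓN : ¬ ℓ ∣ N) (b : ℤ)
    (htr : ∀ p : ℕ, p.Prime → ℓ ≠ p → ∀ A : ValuationSubring (AlgebraicClosure ℚ),
      A.LiesOverPrime ℓ → ∀ σ : AlgebraicClosure ℚ ≃ₐ[ℚ] AlgebraicClosure ℚ, A.IsFrobeniusAt σ ℓ →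
        Affine.Point.galoisTrace ℚ (W.map (Int.castRingHom ℚ)).toAffine p σ = (b : ZMod p)) :
    qCoeff f ℓ = (b : ℂ) := by
  obtain ⟨A, hA⟩ := GaloisBasic.exists_liesOverPrime hℓ
  obtain ⟨σ, hσ⟩ := GaloisBasic.exists_isFrobeniusAt hℓ hA
  have key : ∀ p : ℕ, p.Prime → ℓ ≠ p → ∃ a : ZC, (a : ℂ) = qCoeff f ℓ ∧
      ∃ 𝔪 : Ideal ZC, 𝔪.IsMaximal ∧ (p : ZC) ∈ 𝔪 ∧ a - (b : ZC) ∈ 𝔪 := fun p hp hℓp => by
    obtain ⟨𝔪, h𝔪⟩ := h.congr hΔ hp
    obtain ⟨a, ha, hb⟩ := (h𝔪.galoisCongr hΔ hp).attached ℓ hℓ hℓN hℓp A hA σ hσ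
    exact ⟨a, ha, 𝔪, h𝔪.2.1, h𝔪.2.2.1, hb b (htr p hp hℓp A hA σ hσ)⟩
  obtain ⟨p₀, hp₀B, hp₀⟩ := Nat.exists_infinite_primes (ℓ + 1)
  obtain ⟨a, ha, -⟩ := key p₀ hp₀ (by omega)
  have h0 : a - (b : ZC) = 0 := eq_zero_of_mem_large fun B => by
    obtain ⟨p, hpB, hp⟩ := Nat.exists_infinite_primes (max B ℓ + 1)
    obtain ⟨a', ha', 𝔪, hmax, hpm, hmem⟩ := key p hp (by omega)
    rw [show a' = a from Subtype.ext (ha'.trans ha.symm)] at hmem
    exact ⟨p, by omega, hp, 𝔪, hmax, hpm, hmem⟩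
  rw [← ha, sub_eq_zero.1 h0]
  simp

/-- A matching eigenform of squarefree level gives modularity of exact conductor level. -/
theorem exactConductor_of_matches (hΔ : W.Δ ≠ 0) (hW : W.IsSemistableModel) {M : ℕ}
    (hM : Squarefree M)
    {f : CuspForm (CongruenceSubgroup.Gamma0 M) 2} (h : Matches W M f) :
    Mlc1IsModularModelOfExactConductorLevel W := by
  have : NeZero M := ⟨hM.ne_zero⟩
  obtain ⟨hf, S, hS⟩ := h
  obtain ⟨N, g, hNM, hN0, hg, hval⟩ := HM.exists_newform hf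
  have : NeZero N := ⟨hN0.ne'⟩
  have hNsq : Squarefree N := hM.squarefree_of_dvd hNM
  have hgm : Matches W N g := ⟨hg.1, S ∪ M.primeFactors, fun ℓ hℓ hℓS hgood hℓN => by
    rw [Finset.mem_union, not_or, Nat.mem_primeFactors] at hℓS
    have hℓM : ¬ ℓ ∣ M := fun hd => hℓS.2 ⟨hℓ, hd, hM.ne_zero⟩
    rw [hval ℓ hℓ hℓM, hS ℓ hℓ hℓS.1 hgood hℓM]⟩
  refine ⟨N, hN0, hNsq, fun q hq => ⟨fun hqN => ?_, fun hqΔ => ?_⟩, g, hg.1,
    fun ℓ hℓ hgood hℓN => hgm.qCoeff_eq hΔ hℓ hℓN _ fun p hp hℓp A hA σ hσ => ?_⟩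
  · by_contra hgood
    refine apOfModel_sq_ne hq hgood (sub_eq_zero.1 (eq_zero_of_dvd_large fun B => ?_))
    obtain ⟨p, hpB, hp⟩ := Nat.exists_infinite_primes (max B (max q 2) + 1)
    obtain ⟨𝔪, h𝔪⟩ := hgm.congr hΔ hp
    exact ⟨p, by omega,
      newFrobenius W p N q g 𝔪 hΔ hp hg hNsq hq (by omega) hqN hgood h𝔪⟩
  · by_contra hqN
    obtain ⟨p₀, hp₀B, hp₀⟩ := Nat.exists_infinite_primes (q + 1)
    have hbad : ¬ W.IsGoodPrimeFor q := fun hg' => hg' hqΔ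
    have hs2 := (multFrobenius W p₀ q hΔ hW hp₀ hq (by omega) hbad).1
    have e := hgm.qCoeff_eq hΔ hq hqN (multSign W q * (q + 1)) fun p hp hqp A hA σ hσ =>
      (multFrobenius W p q hΔ hW hp hq hqp hbad).2 A hA σ hσ
    refine coeffBound N g q hN0 hg.1 hq hqN ?_
    rw [e]
    have hs' : ((multSign W q : ℂ)) ^ 2 = 1 := by exact_mod_cast hs2
    push_cast
    linear_combination ((q : ℂ) + 1) ^ 2 * hs'
  · have := Fact.mk hp
    exact EC.galoisTrace_frobenius_eq_apOfModel W hℓ hgood hℓp hA hσ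

end FermatAgent.Assembly
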