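import Fermat.Agent.HM.Newform

/-!
# Stabilisation of an eigenform at a prime outside the level
-/

set_option autoImplicit false

noncomputable section

open CuspForm ModularFormClass CongruenceSubgroup

namespace FermatAgent.Assembly

open MF HM

variable {N r : ℕ} [NeZero N]

private lemma ite_div_eq (a : ℕ → ℂ) {ℓ r : ℕ} (hℓ : ℓ.Prime) (hr : r.Prime) (hne : ℓ ≠ r) (n : ℕ) :
    (if ℓ ∣ n then (if r ∣ n / ℓ then a (n / ℓ / r) else 0) else 0) =
      if r ∣ n then (if ℓ ∣ n / r then a (n / r / ℓ) else 0) else 0 := by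
  have hcop : ℓ.Coprime r := (Nat.coprime_primes hℓ hr).2 hne
  by_cases h : ℓ * r ∣ n
  · obtain ⟨k, rfl⟩ := h
    have h1 : ℓ * r * k / ℓ = r * k := by rw [mul_assoc, Nat.mul_div_cancel_left _ hℓ.pos]
    have h2 : ℓ * r * k / r = ℓ * k := by
      rw [mul_comm ℓ r, mul_assoc, Nat.mul_div_cancel_left _ hr.pos]
    rw [if_pos (Dvd.intro _ (mul_assoc ℓ r k).symm), if_pos (Dvd.intro_left ℓ rfl |>.mul_right k),
      h1, h2, if_pos (dvd_mul_right r k), if_pos (dvd_mul_right ℓ k),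
      Nat.mul_div_cancel_left _ hℓ.pos, Nat.mul_div_cancel_left _ hr.pos]
  · have hl : ∀ (_ : ℓ ∣ n), ¬ r ∣ n / ℓ := fun h1 h2 =>
      h ((Nat.dvd_div_iff_mul_dvd h1).1 h2)
    have hr' : ∀ (_ : r ∣ n), ¬ ℓ ∣ n / r := fun h1 h2 =>
      h (mul_comm ℓ r ▸ (Nat.dvd_div_iff_mul_dvd h1).1 h2)
    by_cases h1 : ℓ ∣ n <;> by_cases h2 : r ∣ n <;> simp [h1, h2, hl, hr']

/-- **Stabilisation.** For a root `α` of `X² - a_r X + r` there is an eigenform of level `N r`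
with the same coefficients at all primes but `r`, and `a_r = α`. -/
theorem exists_stabilisation {g : CuspForm (Gamma0 N) 2} (hg : g.IsNormalizedEigenform)
    (hr : r.Prime) (hrN : ¬ r ∣ N) {α β : ℂ} (hsum : α + β = qCoeff g r) (hprod : α * β = r) :
    ∃ g' : CuspForm (Gamma0 (N * r)) 2, g'.IsNormalizedEigenform ∧ qCoeff g' r = α ∧
      ∀ ℓ : ℕ, ℓ.Prime → ℓ ≠ r → qCoeff g' ℓ = qCoeff g ℓ := by
  have : NeZero (N * r) := ⟨mul_ne_zero (NeZero.ne N) hr.ne_zero⟩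
  have hrM : r ∣ N * r := dvd_mul_left r N
  set a : ℕ → ℂ := fun n => qCoeff (⇑g) n with ha
  have heig : ∀ ℓ, ℓ.Prime → ∀ n,
      a (ℓ * n) + heckeConst N 2 ℓ * (if ℓ ∣ n then a (n / ℓ) else 0) = a ℓ * a n :=
    ((isEigen_iff_isNormalizedEigenform g).mpr hg).2
  have hr0 : (r : ℂ) ≠ 0 := Nat.cast_ne_zero.2 hr.ne_zero
  have her : heckeConst N 2 r = (r : ℂ) := by simp [heckeConst, hrN]
  set v : CuspForm (Gamma0 (N * r)) 2 := levelRaise (dvd_mul_right N r) g with hv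
  set g' := v - (β / r) • (a r • v - CuspForm.heckeULin 2 hrM v) with hg'
  have hb : ∀ n, qCoeff (⇑g') n = a n - β * (if r ∣ n then a (n / r) else 0) := by
    intro n
    have hU : qCoeff (⇑(CuspForm.heckeULin 2 hrM v)) n = a (r * n) := by
      rw [qCoeff_heckeULin hr hrM v n, heckeConst, if_pos hrM, zero_mul, add_zero]
      rfl
    have h1 := heig r hr n
    rw [her] at h1
    rw [hg', qCoeff_sub, qCoeff_smul, qCoeff_sub, qCoeff_smul, hU]
    show a n - β / r * (a r * a n - a (r * n)) = _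
    rw [← h1]
    field_simp
    ring
  have hb1 : ∀ ℓ, ℓ.Prime → ℓ ≠ r → qCoeff (⇑g') ℓ = a ℓ := fun ℓ hℓ hne => by
    rw [hb, if_neg fun hd => hne ((Nat.prime_dvd_prime_iff_eq hr hℓ).1 hd).symm, mul_zero, sub_zero]
  have hbr : qCoeff (⇑g') r = α := by
    rw [hb, if_pos dvd_rfl, Nat.div_self hr.pos, show a 1 = 1 from hg.qCoeff_one, mul_one,
      show a r = α + β from hsum.symm, add_sub_cancel_right]
  refine ⟨g', (isEigen_iff_isNormalizedEigenform g').1 ⟨?_, fun ℓ hℓ n => ?_⟩, hbr, hb1⟩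
  · rw [hb, if_neg hr.not_dvd_one, mul_zero, sub_zero]
    exact hg.qCoeff_one
  rcases eq_or_ne ℓ r with rfl | hne
  · have h1 := heig ℓ hℓ n
    rw [her] at h1
    rw [hbr, hb (ℓ * n), hb n, if_pos (dvd_mul_right ℓ n), Nat.mul_div_cancel_left _ hℓ.pos,
      show heckeConst (N * ℓ) 2 ℓ = 0 by simp [heckeConst, hrM], zero_mul, add_zero]
    rw [show a ℓ = α + β from hsum.symm] at h1
    rw [← hprod] at h1
    linear_combination h1
  have hc : heckeConst (N * r) 2 ℓ = heckeConst N 2 ℓ := by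
    have : ℓ ∣ N * r ↔ ℓ ∣ N :=
      ⟨fun h => (hℓ.dvd_mul.1 h).resolve_right fun h' =>
        hne ((Nat.prime_dvd_prime_iff_eq hℓ hr).1 h'), fun h => h.mul_right r⟩
    simp [heckeConst, this]
  have h1 := heig ℓ hℓ n
  have hdiv : r ∣ ℓ * n ↔ r ∣ n :=
    ⟨fun h => (hr.dvd_mul.1 h).resolve_left fun h' =>
      hne ((Nat.prime_dvd_prime_iff_eq hr hℓ).1 h').symm, fun h => h.mul_left ℓ⟩
  have key : (if r ∣ ℓ * n then a (ℓ * n / r) else 0) +
      heckeConst N 2 ℓ * (if ℓ ∣ n then (if r ∣ n / ℓ then a (n / ℓ / r) else 0) else 0) =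
      a ℓ * (if r ∣ n then a (n / r) else 0) := by
    rw [ite_div_eq a hℓ hr hne n]
    by_cases hd : r ∣ n
    · rw [if_pos (hdiv.2 hd), if_pos hd, if_pos hd, Nat.mul_div_assoc ℓ hd]
      exact heig ℓ hℓ (n / r)
    · rw [if_neg (hd ∘ hdiv.1), if_neg hd, if_neg hd, mul_zero, mul_zero, add_zero]
  rw [hb1 ℓ hℓ hne, hb (ℓ * n), hb (n / ℓ), hb n, hc]
  by_cases hd : ℓ ∣ n
  · simp only [if_pos hd] at h1 key ⊢
    linear_combination h1 - β * key
  · simp only [if_neg hd] at h1 key ⊢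
    linear_combination h1 - β * key

end FermatAgent.Assembly
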