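import Fermat.Agent.Assembly.Residual
import Fermat.Agent.HM.Newform
import Fermat.Agent.Assembly.Stabilise

/-!
# Changing a residual level

Stabilisation adds primes to the level of an eigenform (`exists_add_primes`), a residual level can
be enlarged to a multiple, and a squarefree one gives a congruent newform on a divisor of it.
-/

set_option autoImplicit false

noncomputable section

open WeierstrassCurve CuspForm ModularFormClass
open scoped WeierstrassCurve.Affine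

namespace FermatAgent.Assembly

variable {W : WeierstrassCurve ℤ} {p : ℕ}

lemma squarefree_mul_prime {M r : ℕ} (hM : Squarefree M) (hr : r.Prime) (hrM : ¬ r ∣ M) :
    Squarefree (M * r) :=
  (Nat.squarefree_mul ((hr.coprime_iff_not_dvd.2 hrM).symm)).2 ⟨hM, hr.squarefree⟩

lemma prime_dvd_mul_prod {M q : ℕ} {T : Finset ℕ} (hT : ∀ t ∈ T, t.Prime) (hq : q.Prime) :
    q ∣ M * ∏ t ∈ T, t ↔ q ∣ M ∨ q ∈ T := by
  rw [hq.dvd_mul, hq.prime.dvd_finsetProd_iff]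
  refine or_congr Iff.rfl ⟨?_, fun h => ⟨q, h, dvd_rfl⟩⟩
  rintro ⟨t, ht, hqt⟩
  exact ((Nat.prime_dvd_prime_iff_eq hq (hT t ht)).1 hqt) ▸ ht

lemma squarefree_mul_prod {M : ℕ} {T : Finset ℕ} (hM : Squarefree M)
    (hT : ∀ t ∈ T, t.Prime ∧ ¬ t ∣ M) : Squarefree (M * ∏ t ∈ T, t) := by
  induction T using Finset.induction_on with
  | empty => simpa using hM
  | insert a T ha ih =>
    have hT' : ∀ t ∈ T, t.Prime ∧ ¬ t ∣ M := fun t ht => hT t (Finset.mem_insert_of_mem ht)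
    obtain ⟨hap, haM⟩ := hT a (Finset.mem_insert_self a T)
    rw [Finset.prod_insert ha, mul_left_comm, mul_comm]
    refine squarefree_mul_prime (ih hT') hap ?_
    rw [prime_dvd_mul_prod (fun t ht => (hT' t ht).1) hap]
    tauto

/-- The roots of `X² - a X + r`. -/
lemma exists_roots (a : ℂ) (r : ℕ) : ∃ α β : ℂ, α + β = a ∧ α * β = r := by
  obtain ⟨s, hs⟩ := IsAlgClosed.exists_pow_nat_eq (a ^ 2 - 4 * r) (n := 2) two_pos
  exact ⟨(a + s) / 2, (a - s) / 2, by ring, by linear_combination (-(1 : ℂ) / 4) * hs⟩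

/-- Adding primes outside the level, keeping all other coefficients. -/
theorem exists_add_primes {M : ℕ} [NeZero M] {g : CuspForm (CongruenceSubgroup.Gamma0 M) 2}
    (hg : g.IsNormalizedEigenform) (T : Finset ℕ) (hT : ∀ t ∈ T, t.Prime ∧ ¬ t ∣ M) :
    ∃ h : CuspForm (CongruenceSubgroup.Gamma0 (M * ∏ t ∈ T, t)) 2, h.IsNormalizedEigenform ∧
      ∀ ℓ : ℕ, ℓ.Prime → ℓ ∉ T → qCoeff h ℓ = qCoeff g ℓ := by
  induction T using Finset.induction_on with
  | empty =>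
    rw [Finset.prod_empty, mul_one]
    exact ⟨g, hg, fun _ _ _ => rfl⟩
  | insert a T ha ih =>
    have hT' : ∀ t ∈ T, t.Prime ∧ ¬ t ∣ M := fun t ht => hT t (Finset.mem_insert_of_mem ht)
    obtain ⟨hap, haM⟩ := hT a (Finset.mem_insert_self a T)
    obtain ⟨h, hh, hcoef⟩ := ih hT'
    have : NeZero (M * ∏ t ∈ T, t) :=
      ⟨mul_ne_zero (NeZero.ne M) (Finset.prod_ne_zero_iff.2 fun t ht => (hT' t ht).1.ne_zero)⟩
    have hna : ¬ a ∣ M * ∏ t ∈ T, t := by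
      rw [prime_dvd_mul_prod (fun t ht => (hT' t ht).1) hap]; tauto
    obtain ⟨α, β, hs, hp⟩ := exists_roots (qCoeff h a) a
    obtain ⟨h', hh', -, hcoef'⟩ := exists_stabilisation hh hap hna hs hp
    rw [Finset.prod_insert ha, mul_left_comm, mul_comm]
    refine ⟨h', hh', fun ℓ hℓ hℓT => ?_⟩
    rw [Finset.mem_insert, not_or] at hℓT
    rw [hcoef' ℓ hℓ hℓT.1, hcoef ℓ hℓ hℓT.2]

/-- A residual level can be enlarged to a multiple. -/
theorem residual_of_dvd {M K : ℕ} (hMK : M ∣ K) (hK : K ≠ 0)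
    (h : W.IsResiduallyModularOfLevel p M) : W.IsResiduallyModularOfLevel p K := by
  have : NeZero K := ⟨hK⟩
  have : NeZero M := ⟨fun e => hK (Nat.eq_zero_of_zero_dvd (e ▸ hMK))⟩
  obtain ⟨f, 𝔪, hf, hmax, hmem, hc⟩ := h
  obtain ⟨g, hg, hga⟩ := HM.exists_eigenform_of_dvd hMK hf
  refine ⟨g, 𝔪, hg, hmax, hmem, fun ℓ hℓ hgd hℓK hℓp => ?_⟩
  obtain ⟨a, ha, hm⟩ := hc ℓ hℓ hgd (fun hd => hℓK (hd.trans hMK)) hℓp
  exact ⟨a, by rw [ha, hga ℓ hℓ hℓK], hm⟩

/-- A squarefree residual level gives a newform on a divisor of it. -/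
theorem exists_congr_newform (hΔ : W.Δ ≠ 0) (hp : p.Prime) {M : ℕ} (hM : Squarefree M)
    (hres : W.IsResiduallyModularOfLevel p M) :
    ∃ (N : ℕ) (g : CuspForm (CongruenceSubgroup.Gamma0 N) 2) (𝔪 : Ideal ZC),
      N ∣ M ∧ g.IsNewform ∧ Congr W p N g 𝔪 := by
  have : NeZero M := ⟨hM.ne_zero⟩
  obtain ⟨f, 𝔪, hf, hmax, hmem, hc⟩ := hres
  obtain ⟨N, g, hNM, hN0, hg, hval⟩ := HM.exists_newform hf
  have : NeZero N := ⟨hN0.ne'⟩
  refine ⟨N, g, 𝔪, hNM, hg, congr_of_cofinite hΔ hp hg.1 hmax hmem M.primeFactors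
    fun ℓ hℓ hℓS hgd _ hℓp => ?_⟩
  have hℓM : ¬ ℓ ∣ M := fun hd => hℓS (Nat.mem_primeFactors.2 ⟨hℓ, hd, hM.ne_zero⟩)
  obtain ⟨a, ha, hm⟩ := hc ℓ hℓ hgd hℓM hℓp
  exact ⟨a, by rw [ha, hval ℓ hℓ hℓM], hm⟩

end FermatAgent.Assembly
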