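import Fermat.Agent.Assembly.Lift
import Fermat.Agent.Assembly.Conductor
import Fermat.Agent.Lifting.Family
import Fermat.Agent.Lifting.MazurAux

/-!
# Clean levels and modularity lifting

Mazur's principle and stabilisation bring a squarefree residual level to a clean one
(`exists_clean_level`), from which lifting produces a matching eigenform (`matches_of_seed`).
-/

set_option autoImplicit false

noncomputable section

open WeierstrassCurve CuspForm ModularFormClass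
open scoped WeierstrassCurve.Affine

namespace FermatAgent.Assembly

variable {W : WeierstrassCurve ℤ} {p : ℕ}

/-- Mazur's principle applied repeatedly: the primes `q ≢ 1 (mod p)` left in the level are
residually ramified. -/
theorem exists_reduced_level (hΔ : W.Δ ≠ 0) (hW : W.IsSemistableModel)
    (hp : p.Prime) (hp2 : p ≠ 2) (hirr : W.ModRepIsIrreducible p) :
    ∀ {M : ℕ}, Squarefree M → W.IsResiduallyModularOfLevel p M →
      ∃ M₁, M₁ ∣ M ∧ W.IsResiduallyModularOfLevel p M₁ ∧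
        ∀ q : ℕ, q.Prime → q ≠ p → q ∣ M₁ → (q : ZMod p) = 1 ∨ ¬ UnramAt W p q := by
  intro M
  induction M using Nat.strong_induction_on with
  | _ M ih =>
    intro hM hres
    by_cases h : ∀ q : ℕ, q.Prime → q ≠ p → q ∣ M → (q : ZMod p) = 1 ∨ ¬ UnramAt W p q
    · exact ⟨M, dvd_rfl, hres, h⟩
    push Not at h
    obtain ⟨q, hq, hqp, hqM, hq1, hu⟩ := h
    obtain ⟨M₁, h1, h2, h3⟩ := ih (M / q)
      (Nat.div_lt_self (Nat.pos_of_ne_zero hM.ne_zero) hq.one_lt)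
      (hM.squarefree_of_dvd (Nat.div_dvd_of_dvd hqM))
      (Lifting.mazurPrinciple W p M q hΔ hW hp hp2 hirr hM hq hqp hq1 hqM hu hres)
    exact ⟨M₁, h1.trans (Nat.div_dvd_of_dvd hqM), h2, h3⟩

/-- A squarefree residual level, prime to `p` if the curve has good reduction there, gives a
clean one without a new prime `p`: Mazur's principle removes unramified primes `q ≢ 1 (mod p)` and
stabilisation adds the bad primes `q ≡ 1 (mod p)`. -/
theorem exists_clean_level (hΔ : W.Δ ≠ 0) (hW : W.IsSemistableModel)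
    (hp : p.Prime) (hp2 : p ≠ 2) (hirr : W.ModRepIsIrreducible p)
    {M₀ : ℕ} (hM₀ : Squarefree M₀) (hres : W.IsResiduallyModularOfLevel p M₀)
    (hgp : W.IsGoodPrimeFor p → ¬ p ∣ M₀) :
    ∃ (M : ℕ) (h : CuspForm (CongruenceSubgroup.Gamma0 M) 2) (𝔪 : Ideal ZC), Squarefree M ∧
      Congr W p M h 𝔪 ∧ CleanLevel W p M ∧ (p ∣ M → p ∣ M₀) := by
  classical
  obtain ⟨M₁, hM₁0, hres₁, hclean₁⟩ := exists_reduced_level hΔ hW hp hp2 hirr hM₀ hres
  have hM₁ : Squarefree M₁ := hM₀.squarefree_of_dvd hM₁0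
  obtain ⟨N, g, 𝔪, hN1, -, hcg⟩ := exists_congr_newform hΔ hp hM₁ hres₁
  have hNsq : Squarefree N := hM₁.squarefree_of_dvd hN1
  have : NeZero N := ⟨hNsq.ne_zero⟩
  have hclean : ∀ q : ℕ, q.Prime → q ≠ p → q ∣ N → (q : ZMod p) = 1 ∨ ¬ UnramAt W p q :=
    fun q hq hqp hqN => hclean₁ q hq hqp (hqN.trans hN1)
  -- the bad primes congruent to one
  set T : Finset ℕ := W.Δ.natAbs.primeFactors.filter
    fun q => q ≠ p ∧ (q : ZMod p) = 1 ∧ ¬ q ∣ N with hTdef
  have hT : ∀ t ∈ T, t.Prime ∧ ¬ t ∣ N := fun t ht => by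
    rw [hTdef, Finset.mem_filter, Nat.mem_primeFactors] at ht
    exact ⟨ht.1.1, ht.2.2.2⟩
  have hpT : p ∉ T := fun h => by
    rw [hTdef, Finset.mem_filter] at h; exact h.2.1 rfl
  set M₂ := N * ∏ t ∈ T, t with hM₂def
  obtain ⟨h, hh, hcoef⟩ : ∃ h : CuspForm (CongruenceSubgroup.Gamma0 M₂) 2, h.IsNormalizedEigenform ∧
      ∀ ℓ : ℕ, ℓ.Prime → ℓ ∉ T → qCoeff h ℓ = qCoeff g ℓ := exists_add_primes hcg.1 T hT
  have hM₂ : Squarefree M₂ := squarefree_mul_prod hNsq hT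
  have : NeZero M₂ := ⟨hM₂.ne_zero⟩
  have hdvd₂ : ∀ q : ℕ, q.Prime → (q ∣ M₂ ↔ q ∣ N ∨ q ∈ T) := fun q hq =>
    prime_dvd_mul_prod (fun t ht => (hT t ht).1) hq
  have hch : Congr W p M₂ h 𝔪 := ⟨hh, hcg.2.1, hcg.2.2.1, fun ℓ hℓ hg' hℓM hℓp => by
    rw [hdvd₂ ℓ hℓ, not_or] at hℓM
    obtain ⟨a, ha, hm⟩ := hcg.2.2.2 ℓ hℓ hg' hℓM.1 hℓp
    exact ⟨a, by rw [ha, hcoef ℓ hℓ hℓM.2], hm⟩⟩
  have hpM : p ∣ M₂ → p ∣ M₀ := fun hd => ((hdvd₂ p hp).1 hd).elim
    (fun h => (h.trans hN1).trans hM₁0) fun h => absurd h hpT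
  refine ⟨M₂, h, 𝔪, hM₂, hch,
    ⟨fun q hq hqp hqM => ?_, fun q hq hqp hbad hqM => ?_, fun hg hd => hgp hg (hpM hd)⟩, hpM⟩
  · rcases (hdvd₂ q hq).1 hqM with hd | hd
    · exact hclean q hq hqp hd
    · rw [hTdef, Finset.mem_filter] at hd
      exact Or.inl hd.2.2.1
  · rw [hdvd₂ q hq, not_or] at hqM
    refine ⟨fun hq1 => hqM.2 ?_, (hcg.galoisCongr hΔ hp).unramified hirr q hq hqM.1 hqp⟩
    rw [hTdef, Finset.mem_filter]
    exact ⟨Nat.mem_primeFactors.2
      ⟨hq, Int.natCast_dvd.1 (not_not.1 hbad), Int.natAbs_ne_zero.2 hΔ⟩, hqp, hq1, hqM.1⟩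

/-- **Modularity lifting**: a semistable curve residually modular at an odd irreducible prime `p` of
a squarefree level, prime to `p` if the reduction there is good, has the eigenvalues of an
eigenform of squarefree level at almost all primes. -/
theorem matches_of_seed (hΔ : W.Δ ≠ 0) (hW : W.IsSemistableModel)
    (hp : p.Prime) (hp2 : p ≠ 2) (hirr : W.ModRepIsIrreducible p)
    {M₀ : ℕ} (hM₀ : Squarefree M₀) (hres : W.IsResiduallyModularOfLevel p M₀)
    (hgp : W.IsGoodPrimeFor p → ¬ p ∣ M₀) :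
    ∃ (M : ℕ) (f : CuspForm (CongruenceSubgroup.Gamma0 M) 2), Squarefree M ∧ Matches W M f := by
  classical
  obtain ⟨M, h, 𝔪, hM, hch, hclean, -⟩ :=
    exists_clean_level hΔ hW hp hp2 hirr hM₀ hres hgp
  obtain ⟨M', f, hM', hf, hfa⟩ := Lifting.raiseLift W p M h 𝔪 hΔ hW hp hp2 hirr hM hch hclean
  exact ⟨M', f, hM', hf, {p}, fun ℓ hℓ hℓS hgd hℓM =>
    hfa ℓ hℓ hgd hℓM (fun e => hℓS (Finset.mem_singleton.2 e))⟩

end FermatAgent.Assembly
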