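import Fermat.Agent.Assembly.Vocabulary
import Fermat.Agent.S05
import Fermat.Agent.ECLocal.Frey
import Fermat.Prelude.Def_FreyPackage_IsConductorLevel

/-!
# The Frey curve: semistability and ramification

The minimal integral model of the Frey curve of a counterexample to Fermat's Last Theorem is
semistable and its mod `p` representation is unramified at the odd primes `q ≠ p`.
-/

set_option autoImplicit false

noncomputable section

open WeierstrassCurve CuspForm ModularFormClass
open scoped WeierstrassCurve.Affine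

namespace FermatAgent.Assembly

variable (P : FreyPackage)

local notation "E" => FreyPackage.freyCurveInt P

/-- The minimal model of the Frey curve is semistable. -/
lemma frey_semistable : (E).IsSemistableModel := fun _ hq hd =>
  ECLocal.frey_not_dvd_c₄ P hq (ECLocal.frey_dvd_abc P hq hd)

/-- The primes dividing `abc` are bad for the minimal model. -/
lemma frey_dvd_Δ {q : ℕ} (hq : q.Prime) (h : (q : ℤ) ∣ P.a * P.b * P.c) : (q : ℤ) ∣ (E).Δ := by
  have hp := Nat.prime_iff_prime_int.1 hq
  have h1 : (q : ℤ) ^ (2 * P.p) ∣ 256 * (E).Δ := ECLocal.frey_Δ P ▸ pow_dvd_pow_of_dvd h _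
  rcases eq_or_ne q 2 with rfl | h2
  · have h9 : ((2 : ℕ) : ℤ) ^ 9 ∣ 256 * (E).Δ :=
      (pow_dvd_pow _ (by have := P.hp5; omega)).trans h1
    norm_num at h9 ⊢
    rw [show (512 : ℤ) = 256 * 2 by norm_num] at h9
    exact (mul_dvd_mul_iff_left (by norm_num)).1 h9
  · refine (hp.dvd_or_dvd
      ((dvd_pow_self (q : ℤ) (by have := P.hp5; omega)).trans h1)).resolve_left ?_
    intro hd
    have h8 : (q : ℤ) ∣ 2 ^ 8 := by norm_num; exact hd
    exact h2 ((Nat.prime_dvd_prime_iff_eq hq Nat.prime_two).1
      (by exact_mod_cast hp.dvd_of_dvd_pow h8))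

/-- The representation on the `p`-torsion is unramified at the odd primes `q ≠ p`. -/
lemma frey_unramAt {q : ℕ} (hq : q.Prime) (hq2 : q ≠ 2) (hqp : q ≠ P.p) : UnramAt E P.p q := by
  have h := Fermat.Agent.S05.result P hq hq2 hqp
  rwa [FreyPackage.GaloisRepUnramifiedAt, ECLocal.freyCurve_eq_map] at h

/-- Residual modularity of the minimal model is modularity of the Frey representation. -/
lemma modularRep_of_residual {N : ℕ} (h : (E).IsResiduallyModularOfLevel P.p N) :
    P.ModularRepOfLevel N := by
  obtain ⟨f, 𝔪, hc⟩ := h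
  exact ⟨f, E, 𝔪, hc.1, ⟨1, by rw [one_smul, ECLocal.freyCurve_eq_map]⟩, hc.2.1, hc.2.2.1,
    hc.2.2.2⟩

end FermatAgent.Assembly
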