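import Fermat.Agent.Assembly.Frey
import Fermat.Agent.Assembly.Chain
import Fermat.Agent.BAD.TwoP.Main
import Fermat.Agent.Lifting.RamifiedLevel
import Fermat.Agent.S02
import Fermat.Agent.S07
import Fermat.Agent.S09

/-!
# The endgame

Lowering removes the odd primes `q ≠ p` and then `p` from the level of the Frey representation,
so there is a nonzero cusp form of weight two and level `2` (`s45_of`); as there is none, there are
no Frey packages (`s03_of`) and Fermat's Last Theorem follows (`s01_of`). The route:

1. **Frey package** (`s01_of`). Exponents `3`, `4` are Mathlib's; for a prime `p ≥ 5` a solution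
   gives a `FreyPackage` (`S02`), whose minimal model is semistable (`frey_semistable`).
2. **Modularity** (`exactConductor`). A semistable curve has irreducible mod `3` or mod `5`
   representation (`S51`), so congruences modulo `5` and `3` join it to a curve with supersingular
   good reduction at `3` and surjective mod `3` image (`Switch2.transfers`), which is residually
   modular by Langlands–Tunnell (`LT.Mod3.modThreeBase`). One lifting step (`exact_of_seed`)
   passes from residual modularity to modularity of the exact conductor level: Mazur's principle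
   cleans the level (`mazurPrinciple`), lifting with level raising gives the eigenform (`raiseLift`,
   needing `indexTwo`), and Frobenius at the bad primes fixes its level (`multFrobenius`,
   `newFrobenius`).
   `exact_of_transfers` repeats the step along each link of the chain.
3. **Lowering.** `E[p]` is irreducible (`frey_irreducible`, Mazur) and modular of the conductor
   level (`residual_of_exact`); it is unramified at the odd primes `q ≠ p` (`frey_unramAt`), so
   `Lifting.exists_ramified_level` gives a level dividing `2p`.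
4. **Contradiction** (`s03_of`). A level dividing `2p` is raised to `2p`; Mazur's principle at
   `p` (`BAD.TwoP.residual_div`, by `BAD.AtP`) leaves level `2` (`s45_of`), which has no cusp forms
   (`S07`).
-/

set_option autoImplicit false

noncomputable section

open WeierstrassCurve CuspForm ModularFormClass
open WeierstrassCurve.Affine WeierstrassCurve.Affine.Point
open scoped WeierstrassCurve.Affine

namespace FermatAgent.Assembly

/-- **The mod `p` representation of the Frey curve is irreducible** (Mazur). -/
lemma frey_irreducible (P : FreyPackage) :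
    P.freyCurveInt.ModRepIsIrreducible P.p := by
  have h := Fermat.Agent.S09.result P
  rw [ECLocal.freyCurve_eq_map] at h
  exact h

/-- The statement of S04: the Frey curve is modular. -/
theorem s04_of (P : FreyPackage) : P.freyCurve.IsModular := by
  rw [ECLocal.freyCurve_eq_map]
  exact s60_of _ (ECLocal.freyCurveInt_Δ_ne_zero P) (frey_semistable P)

/-- The statement of S06: the mod `p` representation of the Frey curve is modular of a conductor
level, squarefree and supported on the primes dividing `abc`. -/
theorem s06_of (P : FreyPackage) : ∃ N : ℕ, P.IsConductorLevel N ∧ P.ModularRepOfLevel N := by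
  have hΔ := ECLocal.freyCurveInt_Δ_ne_zero P
  obtain ⟨N, hN, hq, hres⟩ :=
    residual_of_exact hΔ (exactConductor hΔ (frey_semistable P)) P.pp
  exact ⟨N, ⟨Nat.pos_of_ne_zero hN.ne_zero, hN, fun q hqp hqN =>
    ECLocal.frey_dvd_abc P hqp ((hq q hqp).1 hqN)⟩, modularRep_of_residual P hres⟩

/-- Modularity of the Frey representation is residual modularity of the minimal model. -/
theorem residual_of_modularRep (P : FreyPackage) {N : ℕ} (hN : N ≠ 0)
    (h : P.ModularRepOfLevel N) : P.freyCurveInt.IsResiduallyModularOfLevel P.p N := by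
  have : NeZero N := ⟨hN⟩
  obtain ⟨f, W, 𝔪, hf, ⟨C, hC⟩, hmax, hmem, hc⟩ := h
  rw [ECLocal.freyCurve_eq_map] at hC
  have hΔ := ECLocal.freyCurveInt_Δ_ne_zero P
  have hΔ' : W.Δ ≠ 0 := fun h0 => by
    have h1 := congrArg WeierstrassCurve.Δ hC
    rw [variableChange_Δ, map_Δ, map_Δ, h0, _root_.map_zero, mul_eq_zero] at h1
    rcases h1 with h1 | h1
    · exact pow_ne_zero _ (Units.ne_zero _) h1
    · exact hΔ (Int.cast_eq_zero.mp h1)
  have hc' : Congr W P.p N f 𝔪 := ⟨hf, hmax, hmem, hc⟩
  exact isResiduallyModularOfLevel_iff.mpr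
    ⟨f, 𝔪, hc'.of_torEquiv hΔ' P.pp (Switch.torEquiv_of_variableChange P.p C hC).symm⟩

/-- The statement of S43 (Ribet): an odd prime `q ≠ p` can be removed from a conductor level of the
Frey representation, where it is unramified. -/
theorem s43_of (P : FreyPackage) {N q : ℕ} (hcond : P.IsConductorLevel N)
    (hq : q.Prime) (hq2 : q ≠ 2) (hqp : q ≠ P.p)
    (hirr : GaloisRepIsIrreducible (K := AlgebraicClosure ℚ) ℚ P.freyCurve P.p)
    (hmod : P.ModularRepOfLevel N) :
    ∃ M : ℕ, M ∣ N ∧ ¬ q ∣ M ∧ P.ModularRepOfLevel M := by
  have hΔ := ECLocal.freyCurveInt_Δ_ne_zero P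
  have := Fact.mk P.pp
  have : NeZero N := ⟨hcond.pos.ne'⟩
  have hirr' : P.freyCurveInt.ModRepIsIrreducible P.p := by
    rw [ECLocal.freyCurve_eq_map] at hirr
    exact hirr
  have hres := residual_of_modularRep P hcond.pos.ne' hmod
  obtain ⟨g, 𝔪, hcg⟩ := isResiduallyModularOfLevel_iff.mp hres
  obtain ⟨M, hM, hresM, hpM, hram⟩ := Lifting.exists_ramified_level hΔ (frey_semistable P)
    (by have := P.hp5; omega) hirr' hcond.squarefree
    (fun hg hd => hg (frey_dvd_Δ P P.pp (hcond.support _ P.pp hd))) hres
  refine ⟨M, Lifting.dvd_of_ramified hΔ hirr' hcg hM hpM hram,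
    fun hd => hram q hq hqp hd (frey_unramAt P hq hq2 hqp), ?_⟩
  exact modularRep_of_residual P hresM

/-- The statement of S44 (Mazur): `p` can be removed from a conductor level of the Frey
representation. -/
theorem s44_of (P : FreyPackage) {N : ℕ} (hcond : P.IsConductorLevel N) (hpN : P.p ∣ N)
    (hirr : GaloisRepIsIrreducible (K := AlgebraicClosure ℚ) ℚ P.freyCurve P.p)
    (hmod : P.ModularRepOfLevel N) :
    ∃ M : ℕ, M ∣ N ∧ ¬ P.p ∣ M ∧ P.ModularRepOfLevel M := by
  rw [ECLocal.freyCurve_eq_map] at hirr
  have hp2N : ¬ P.p ^ 2 ∣ N := fun h =>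
    Nat.squarefree_iff_prime_squarefree.mp hcond.squarefree P.p P.pp (pow_two P.p ▸ h)
  exact ⟨N / P.p, Nat.div_dvd_of_dvd hpN,
    fun h => hp2N (pow_two P.p ▸ Nat.mul_dvd_of_dvd_div hpN h),
    modularRep_of_residual P (BAD.TwoP.residual_div P hcond.pos hpN hp2N hirr
      (residual_of_modularRep P hcond.pos.ne' hmod))⟩

/-- The statement of S45: the modular Frey representation, being irreducible, descends to level `2`,
so there is a nonzero cusp form of weight two and level `2`. -/
theorem s45_of (P : FreyPackage) (hirr : P.freyCurveInt.ModRepIsIrreducible P.p) :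
    ∃ f : CuspForm (CongruenceSubgroup.Gamma0 2) 2, f ≠ 0 := by
  have hΔ := ECLocal.freyCurveInt_Δ_ne_zero P
  have hW := frey_semistable P
  have hp := P.pp
  have := Fact.mk hp
  have hp5 := P.hp5
  obtain ⟨N, hN, hbad, hres⟩ := residual_of_exact hΔ (exactConductor hΔ hW) hp
  have hgp : P.freyCurveInt.IsGoodPrimeFor P.p → ¬ P.p ∣ N := fun hg hd => hg ((hbad _ hp).1 hd)
  obtain ⟨M, hM, hresM, -, hram⟩ :=
    Lifting.exists_ramified_level hΔ hW (by omega) hirr hN hgp hres
  have hdvd2p : M ∣ 2 * P.p := by
    rw [← Nat.prod_primeFactors_of_squarefree hM]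
    refine Finset.prod_primes_dvd _ (fun r hr => (Nat.prime_of_mem_primeFactors hr).prime)
      fun r hr => ?_
    obtain ⟨hrP, hrM, -⟩ := Nat.mem_primeFactors.mp hr
    rcases eq_or_ne r P.p with rfl | hrp
    · exact dvd_mul_left _ _
    · exact (of_not_not fun hr2 => hram r hrP hrp hrM (frey_unramAt P hrP hr2 hrp)) ▸
        dvd_mul_right 2 P.p
  have h2 := BAD.TwoP.residual_div P (by omega) (dvd_mul_left P.p 2)
    (fun hd => by
      have := Nat.le_of_dvd two_pos (Nat.dvd_of_mul_dvd_mul_right hp.pos (pow_two P.p ▸ hd))
      omega) hirr (residual_of_dvd hdvd2p (mul_ne_zero two_ne_zero hp.ne_zero) hresM)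
  rw [Nat.mul_div_cancel _ hp.pos] at h2
  obtain ⟨f, 𝔪, hf⟩ := h2
  exact ⟨f, hf.1.ne_zero⟩

/-- The statement of S03: **there is no Frey package**, as there are no cusp forms of weight two and
level `2`. -/
theorem s03_of (P : FreyPackage) : False := by
  obtain ⟨f, hf⟩ := s45_of P (frey_irreducible P)
  exact hf (Fermat.Agent.S07.result f)

/-- The statement of S01: Fermat's Last Theorem, from the non-existence of Frey packages for the
primes `p ≥ 5` and Mathlib's proofs for the exponents `3` and `4`. -/
theorem s01_of (n : ℕ) (hn : 3 ≤ n) (a b c : ℕ) (ha : 0 < a) (hb : 0 < b)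
    (hc : 0 < c) : a ^ n + b ^ n ≠ c ^ n := by
  refine FermatLastTheorem.of_odd_primes (fun p pp hodd => ?_) n hn a b c ha.ne' hb.ne' hc.ne'
  rcases lt_or_ge p 5 with hlt | hge
  · obtain rfl : p = 3 := by
      have h2 := pp.two_le
      interval_cases p <;> first | rfl | exact absurd hodd (by decide)
    exact fermatLastTheoremThree
  · rw [fermatLastTheoremFor_iff_int]
    intro x y z hx hy hz H
    obtain ⟨P⟩ := Fermat.Agent.S02.result x y z hx hy hz p pp hge H
    exact s03_of P

end FermatAgent.Assembly

end
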